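import Fermat.Agent.Curve.Degree

/-!
# Residue values at rational places as a ring homomorphism
-/

set_option autoImplicit false

noncomputable section

namespace Fermat.Agent.Reduction.ConstRed

open AlgebraicCurve Fermat.Agent.Curve

variable {K F : Type*} [Field K] [Field F] [Algebra K F] [IsAlgClosed K] [IsFunctionField1 K F]
variable (v : Place K F)

theorem algebraMap_evalAt {f : F} (hf : f ∈ v.toValuationSubring) :
    algebraMap K v.ResidueField (evalAt v f) = IsLocalRing.residue _ ⟨f, hf⟩ := by
  rw [IsScalarTower.algebraMap_apply K v.toValuationSubring v.ResidueField]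
  refine (eq_of_sub_eq_zero ?_).symm
  change IsLocalRing.residue _ (⟨f, hf⟩ : v.toValuationSubring) -
    IsLocalRing.residue _ (algebraMap K v.toValuationSubring (evalAt v f)) = 0
  rw [← map_sub, residue_eq_zero_iff, ordGE_iff]
  have h := evalAt_spec v hf
  simp only [AddSubgroupClass.coe_sub, Place.coe_algebraMap]
  exact h.imp id (by omega)

/-- Evaluation at a rational place. -/
def evalHom : v.toValuationSubring →+* K where
  toFun f := evalAt v (f : F)
  map_one' := (algebraMap K v.ResidueField).injective <| by
    rw [algebraMap_evalAt v (1 : v.toValuationSubring).2, map_one]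
    exact (map_one (algebraMap K v.ResidueField)).symm
  map_mul' f g := (algebraMap K v.ResidueField).injective <| by
    rw [map_mul, algebraMap_evalAt v f.2, algebraMap_evalAt v g.2, algebraMap_evalAt v (f * g).2]
    exact map_mul (IsLocalRing.residue _) f g
  map_zero' := (algebraMap K v.ResidueField).injective <| by
    rw [algebraMap_evalAt v (0 : v.toValuationSubring).2, map_zero]
    exact (map_zero (algebraMap K v.ResidueField)).symm
  map_add' f g := (algebraMap K v.ResidueField).injective <| by
    rw [map_add, algebraMap_evalAt v f.2, algebraMap_evalAt v g.2, algebraMap_evalAt v (f + g).2]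
    exact map_add (IsLocalRing.residue _) f g

theorem evalHom_apply {f : F} (hf : f ∈ v.toValuationSubring) :
    evalHom v ⟨f, hf⟩ = evalAt v f := rfl

theorem evalHom_algebraMap (c : K) : evalHom v (algebraMap K v.toValuationSubring c) = c := by
  refine (algebraMap K v.ResidueField).injective ?_
  change algebraMap K v.ResidueField
    (evalAt v ((algebraMap K v.toValuationSubring c : v.toValuationSubring) : F)) = _
  rw [algebraMap_evalAt v (algebraMap K v.toValuationSubring c).2]
  rfl

theorem evalHom_eq_zero_iff (f : v.toValuationSubring) :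
    evalHom v f = 0 ↔ (f : F) = 0 ∨ 0 < v.ord (f : F) := by
  rw [← map_eq_zero_iff _ (algebraMap K v.ResidueField).injective]
  change algebraMap K v.ResidueField (evalAt v (f : F)) = 0 ↔ _
  rw [algebraMap_evalAt v f.2, residue_eq_zero_iff, ordGE_iff]
  exact or_congr_right (Int.lt_iff_add_one_le.trans (by rw [zero_add])).symm

theorem evalAt_eq_zero_iff {f : F} (hf : f ∈ v.toValuationSubring) :
    evalAt v f = 0 ↔ f = 0 ∨ 0 < v.ord f :=
  evalHom_eq_zero_iff v ⟨f, hf⟩

theorem evalAt_add {f g : F} (hf : f ∈ v.toValuationSubring) (hg : g ∈ v.toValuationSubring) :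
    evalAt v (f + g) = evalAt v f + evalAt v g :=
  map_add (evalHom v) ⟨f, hf⟩ ⟨g, hg⟩

theorem evalAt_mul {f g : F} (hf : f ∈ v.toValuationSubring) (hg : g ∈ v.toValuationSubring) :
    evalAt v (f * g) = evalAt v f * evalAt v g :=
  map_mul (evalHom v) ⟨f, hf⟩ ⟨g, hg⟩

theorem evalAt_sub {f g : F} (hf : f ∈ v.toValuationSubring) (hg : g ∈ v.toValuationSubring) :
    evalAt v (f - g) = evalAt v f - evalAt v g :=
  map_sub (evalHom v) ⟨f, hf⟩ ⟨g, hg⟩

theorem evalAt_pow {f : F} (hf : f ∈ v.toValuationSubring) (n : ℕ) :
    evalAt v (f ^ n) = evalAt v f ^ n :=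
  map_pow (evalHom v) ⟨f, hf⟩ n

@[simp]
theorem evalAt_algebraMap (c : K) : evalAt v (algebraMap K F c) = c :=
  evalHom_algebraMap v c

theorem evalAt_one : evalAt v (1 : F) = 1 := map_one (evalHom v)

theorem evalAt_zero : evalAt v (0 : F) = 0 := map_zero (evalHom v)

theorem evalAt_ne_zero_iff {f : F} (hf : f ∈ v.toValuationSubring) :
    evalAt v f ≠ 0 ↔ f ≠ 0 ∧ v.ord f = 0 := by
  rw [ne_eq, evalAt_eq_zero_iff v hf]
  have := ord_nonneg_of_mem v hf
  constructor
  · intro h
    push Not at h
    exact ⟨h.1, by omega⟩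
  · rintro ⟨h0, h1⟩ (h | h)
    · exact h0 h
    · omega

end Fermat.Agent.Reduction.ConstRed

end
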