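import Fermat.Agent.Reduction.ConstReduction.Eval
import Mathlib.LinearAlgebra.Matrix.Charpoly.Coeff
import Mathlib.RingTheory.Norm.Basic

/-!
# Constant reductions of function fields: scaling, rational functions, orthonormal bases

`ConstReduction A π F Fb`: a subring `O` of `F` with a surjective reduction map to `Fb` over
`π : A →+* k`, such that every nonzero element has a constant multiple with nonzero reduction.
-/

set_option autoImplicit false

noncomputable section

open AlgebraicCurve IntermediateField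
open Polynomial (aeval)

namespace Fermat.Agent.Reduction.ConstRed

variable {K : Type*} [Field K] (A : ValuationSubring K) {k : Type*} [Field k] (π : A →+* k)
variable (F : Type*) [Field F] [Algebra K F] (Fb : Type*) [Field Fb] [Algebra k Fb]

/-- A reduction of `F/K` to `Fb/k` along `π`. -/
structure ConstReduction where
  O : Subring F
  red : O →+* Fb
  π_surjective : Function.Surjective π
  algebraMap_mem : ∀ a : A, algebraMap K F a ∈ O
  red_algebraMap : ∀ a : A, red ⟨algebraMap K F a, algebraMap_mem a⟩ = algebraMap k Fb (π a)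
  scalable : ∀ x : F, x ≠ 0 → ∃ c : K, c ≠ 0 ∧
    ∃ h : algebraMap K F c * x ∈ O, red ⟨algebraMap K F c * x, h⟩ ≠ 0
  red_surjective : Function.Surjective red

variable {A π F Fb}

namespace ConstReduction

variable (C : ConstReduction A π F Fb)

/-- `x` is integral with reduction `w`. -/
def Red (x : F) (w : Fb) : Prop := ∃ h : x ∈ C.O, C.red ⟨x, h⟩ = w

variable {C}

theorem Red.unique {x : F} {w w' : Fb} (h : C.Red x w) (h' : C.Red x w') : w = w' := by
  obtain ⟨_, rfl⟩ := h
  obtain ⟨_, rfl⟩ := h'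
  rfl

theorem Red.mem {x : F} {w : Fb} (h : C.Red x w) : x ∈ C.O := h.1

theorem Red.add {x y : F} {w v : Fb} (h : C.Red x w) (h' : C.Red y v) :
    C.Red (x + y) (w + v) := by
  obtain ⟨hx, rfl⟩ := h
  obtain ⟨hy, rfl⟩ := h'
  exact ⟨add_mem hx hy, map_add C.red ⟨x, hx⟩ ⟨y, hy⟩⟩

theorem Red.mul {x y : F} {w v : Fb} (h : C.Red x w) (h' : C.Red y v) :
    C.Red (x * y) (w * v) := by
  obtain ⟨hx, rfl⟩ := h
  obtain ⟨hy, rfl⟩ := h'
  exact ⟨mul_mem hx hy, map_mul C.red ⟨x, hx⟩ ⟨y, hy⟩⟩

theorem Red.neg {x : F} {w : Fb} (h : C.Red x w) : C.Red (-x) (-w) := by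
  obtain ⟨hx, rfl⟩ := h
  exact ⟨neg_mem hx, map_neg C.red ⟨x, hx⟩⟩

theorem Red.sub {x y : F} {w v : Fb} (h : C.Red x w) (h' : C.Red y v) :
    C.Red (x - y) (w - v) := by
  simpa only [sub_eq_add_neg] using h.add h'.neg

variable (C)

theorem red_zero : C.Red 0 0 := ⟨zero_mem _, map_zero C.red⟩

theorem red_one : C.Red 1 1 := ⟨one_mem _, map_one C.red⟩

theorem red_const (a : A) : C.Red (algebraMap K F a) (algebraMap k Fb (π a)) :=
  ⟨C.algebraMap_mem a, C.red_algebraMap a⟩

theorem exists_red {x : F} (hx : x ∈ C.O) : ∃ w, C.Red x w := ⟨_, hx, rfl⟩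

theorem exists_lift (w : Fb) : ∃ x, C.Red x w := by
  obtain ⟨⟨x, hx⟩, h⟩ := C.red_surjective w
  exact ⟨x, hx, h⟩

variable {C}

theorem Red.pow {x : F} {w : Fb} (h : C.Red x w) (n : ℕ) : C.Red (x ^ n) (w ^ n) := by
  obtain ⟨hx, rfl⟩ := h
  exact ⟨pow_mem hx n, map_pow C.red ⟨x, hx⟩ n⟩

theorem Red.sum {ι : Type*} (s : Finset ι) {x : ι → F} {w : ι → Fb}
    (h : ∀ i ∈ s, C.Red (x i) (w i)) : C.Red (∑ i ∈ s, x i) (∑ i ∈ s, w i) := by
  classical
  induction s using Finset.induction_on with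
  | empty => simpa using C.red_zero
  | insert i s hi ih =>
    rw [Finset.sum_insert hi, Finset.sum_insert hi]
    exact (h i (by simp)).add (ih fun j hj => h j (by simp [hj]))

theorem Red.prod {ι : Type*} (s : Finset ι) {x : ι → F} {w : ι → Fb}
    (h : ∀ i ∈ s, C.Red (x i) (w i)) : C.Red (∏ i ∈ s, x i) (∏ i ∈ s, w i) := by
  classical
  induction s using Finset.induction_on with
  | empty => simpa using C.red_one
  | insert i s hi ih =>
    rw [Finset.prod_insert hi, Finset.prod_insert hi]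
    exact (h i (by simp)).mul (ih fun j hj => h j (by simp [hj]))

variable (C)

include C in
theorem ker_π (a : A) : π a = 0 ↔ A.valuation (a : K) < 1 := by
  haveI : (RingHom.ker π).IsMaximal := RingHom.ker_isMaximal_of_surjective π C.π_surjective
  rw [← RingHom.mem_ker, IsLocalRing.eq_maximalIdeal ‹(RingHom.ker π).IsMaximal›,
    ← A.valuation_lt_one_iff]

include C in
theorem π_ne_zero_iff (a : A) : π a ≠ 0 ↔ A.valuation (a : K) = 1 := by
  rw [ne_eq, C.ker_π]
  exact ⟨fun h => le_antisymm (A.valuation_le_one a) (not_lt.mp h), fun h => by simp [h]⟩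

/-- Scalars outside `A` send integral elements with nonzero reduction out of `O`. -/
theorem mem_of_algebraMap_mul_mem {c : K} {x : F} {w v : Fb} (hx : C.Red x w) (hw : w ≠ 0)
    (h : C.Red (algebraMap K F c * x) v) : c ∈ A := by
  by_contra hc
  have hc0 : c ≠ 0 := by rintro rfl; exact hc (zero_mem _)
  have hci : c⁻¹ ∈ A := (A.mem_or_inv_mem c).resolve_left hc
  have hlt : π ⟨c⁻¹, hci⟩ = 0 := by
    rw [C.ker_π]
    have : 1 < A.valuation c := not_le.mp fun h => hc ((A.valuation_le_one_iff c).mp h)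
    show A.valuation c⁻¹ < 1
    rw [map_inv₀]
    exact inv_lt_one_of_one_lt₀ this
  have h2 := (C.red_const ⟨c⁻¹, hci⟩).mul h
  rw [hlt, map_zero, zero_mul, ← mul_assoc, ← map_mul, inv_mul_cancel₀ hc0, map_one,
    one_mul] at h2
  exact hw (hx.unique h2)

theorem exists_eq_smul {x : F} (hx : x ≠ 0) :
    ∃ (d : K) (y : F) (w : Fb), d ≠ 0 ∧ w ≠ 0 ∧ C.Red y w ∧ x = algebraMap K F d * y := by
  obtain ⟨c, hc, h, hne⟩ := C.scalable x hx
  refine ⟨c⁻¹, algebraMap K F c * x, _, inv_ne_zero hc, hne, ⟨h, rfl⟩, ?_⟩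
  rw [← mul_assoc, ← map_mul, inv_mul_cancel₀ hc, map_one, one_mul]

/-- An integral element with zero reduction is a small multiple of a unit. -/
theorem exists_eq_smul_of_red_eq_zero {x : F} (hx : x ≠ 0) (h : C.Red x 0) :
    ∃ (d : A) (y : F) (w : Fb), π d = 0 ∧ w ≠ 0 ∧ C.Red y w ∧ x = algebraMap K F d * y := by
  obtain ⟨d, y, w, hd, hw, hy, rfl⟩ := C.exists_eq_smul hx
  have hdA := C.mem_of_algebraMap_mul_mem hy hw h
  refine ⟨⟨d, hdA⟩, y, w, ?_, hw, hy, rfl⟩
  by_contra hne
  have h2 := ((C.red_const ⟨d, hdA⟩).mul hy).unique h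
  exact mul_ne_zero ((_root_.map_ne_zero _).mpr hne) hw h2

section Finite

variable {ι : Type*} [Fintype ι]

omit [Algebra K F] in
/-- Scale a nonzero family of constants to be integral with a unit member. -/
theorem exists_max_valuation (c : ι → K) (hc : ∃ i, c i ≠ 0) :
    ∃ i, c i ≠ 0 ∧ ∀ j, c j / c i ∈ A := by
  obtain ⟨i₀, hi₀⟩ := hc
  obtain ⟨i, -, hi⟩ := Finset.exists_max_image Finset.univ (fun j => A.valuation (c j))
    ⟨i₀, Finset.mem_univ _⟩
  have hpos : A.valuation (c i) ≠ 0 := fun h => hi₀ <| by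
    have := hi i₀ (Finset.mem_univ _)
    rw [h, le_zero_iff, map_eq_zero] at this
    exact this
  refine ⟨i, (Valuation.ne_zero_iff _).mp hpos, fun j => ?_⟩
  rw [← A.valuation_le_one_iff, map_div₀, div_le_one₀ (zero_lt_iff.mpr hpos)]
  exact hi j (Finset.mem_univ _)

/-- Orthogonality: a combination of elements with independent reductions is integral only if the
coefficients are, and reduces coefficientwise. -/
theorem coeff_red (S : IntermediateField K F) (Sb : IntermediateField k Fb)
    (hS : ∀ x ∈ S, ∀ w, C.Red x w → w ∈ Sb)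
    {b : ι → F} {bb : ι → Fb} (hb : ∀ i, C.Red (b i) (bb i)) (hind : LinearIndependent Sb bb)
    {f : ι → F} (hf : ∀ i, f i ∈ S) {w : Fb} (h : C.Red (∑ i, f i * b i) w) :
    ∃ g : ι → Sb, (∀ i, C.Red (f i) (g i)) ∧ ∑ i, (g i : Fb) * bb i = w := by
  classical
  have key : ∀ i, ∃ (d : K) (f' : F) (g : Sb), f i = algebraMap K F d * f' ∧ C.Red f' g ∧
      (g = 0 → d = 0) := by
    intro i
    rcases eq_or_ne (f i) 0 with h0 | h0
    · exact ⟨0, 0, 0, by simp [h0], by simpa using C.red_zero, fun _ => rfl⟩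
    obtain ⟨d, y, v, hd, hv, hy, heq⟩ := C.exists_eq_smul h0
    have hyS : y ∈ S := by
      have : y = algebraMap K F d⁻¹ * f i := by
        rw [heq, ← mul_assoc, ← map_mul, inv_mul_cancel₀ hd, map_one, one_mul]
      rw [this]
      exact mul_mem (S.algebraMap_mem _) (hf i)
    exact ⟨d, y, ⟨v, hS y hyS v hy⟩, heq, hy, fun hv0 => absurd (congrArg Subtype.val hv0) hv⟩
  choose d f' g hfd hg hg0 using key
  have hred : ∀ e : ι → A, C.Red (∑ i, algebraMap K F (e i : K) * f' i * b i)
      (∑ i, algebraMap k Fb (π (e i)) * (g i : Fb) * bb i) := fun e =>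
    Red.sum _ fun i _ => ((C.red_const (e i)).mul (hg i)).mul (hb i)
  -- all scalars are integral
  have hdA : ∀ i, d i ∈ A := by
    by_contra hnot
    push Not at hnot
    obtain ⟨j, hj⟩ := hnot
    obtain ⟨i, hi0, hi⟩ := exists_max_valuation (A := A) d ⟨j, fun h0 => hj (h0 ▸ zero_mem _)⟩
    have hiA : d i ∉ A := fun hiA => hj <| by
      rw [show d j = d j / d i * d i from (div_mul_cancel₀ _ hi0).symm]
      exact mul_mem (hi j) hiA
    have hinv : (d i)⁻¹ ∈ A := (A.mem_or_inv_mem _).resolve_left hiA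
    have hπ0 : π ⟨(d i)⁻¹, hinv⟩ = 0 := by
      rw [C.ker_π]
      have : 1 < A.valuation (d i) := not_le.mp fun h => hiA ((A.valuation_le_one_iff _).mp h)
      show A.valuation (d i)⁻¹ < 1
      rw [map_inv₀]
      exact inv_lt_one_of_one_lt₀ this
    have h1 := (C.red_const ⟨(d i)⁻¹, hinv⟩).mul h
    rw [hπ0, map_zero, zero_mul] at h1
    have h2 := hred fun j => ⟨d j / d i, hi j⟩
    have heq : ∑ j, algebraMap K F (d j / d i) * f' j * b j =
        algebraMap K F (d i)⁻¹ * ∑ j, f j * b j := by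
      rw [Finset.mul_sum]
      refine Finset.sum_congr rfl fun j _ => ?_
      rw [hfd j, div_eq_inv_mul, map_mul]
      ring
    simp only [heq] at h2
    have h3 := h2.unique h1
    have h4 := Fintype.linearIndependent_iff.mp hind
      (fun j => algebraMap k Sb (π ⟨d j / d i, hi j⟩) * g j) (by
        rw [← h3]
        exact Finset.sum_congr rfl fun j _ => rfl) i
    have h5 : π ⟨d i / d i, hi i⟩ = 1 := by
      rw [← map_one π]
      exact congrArg π (Subtype.ext (div_self hi0))
    rw [h5, map_one, one_mul] at h4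
    exact hi0 (hg0 i h4)
  refine ⟨fun i => algebraMap k Sb (π ⟨d i, hdA i⟩) * g i, fun i => ?_, ?_⟩
  · rw [hfd i]
    exact (C.red_const ⟨d i, hdA i⟩).mul (hg i)
  · refine Red.unique (C := C) ?_ h
    have := hred fun i => ⟨d i, hdA i⟩
    convert this using 2 with i
    · rw [hfd i]
    · rfl

/-- Elements with independent reductions are independent. -/
theorem linearIndependent_of_red (S : IntermediateField K F) (Sb : IntermediateField k Fb)
    (hS : ∀ x ∈ S, ∀ w, C.Red x w → w ∈ Sb)
    {b : ι → F} {bb : ι → Fb} (hb : ∀ i, C.Red (b i) (bb i))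
    (hind : LinearIndependent Sb bb) : LinearIndependent S b := by
  classical
  refine Fintype.linearIndependent_iff.mpr fun c hc i => ?_
  by_contra hi
  obtain ⟨d, y, w, hd, hw, hy, heq⟩ := C.exists_eq_smul (x := (c i : F))
    (by simpa using hi)
  have hsum : C.Red (∑ j, (algebraMap K F d⁻¹ * (c j : F)) * b j) 0 := by
    simp only [mul_assoc, ← Finset.mul_sum]
    rw [show ∑ j, (c j : F) * b j = 0 from hc, mul_zero]
    exact C.red_zero
  obtain ⟨g, hg, hgsum⟩ := C.coeff_red S Sb hS hb hind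
    (fun j => mul_mem (S.algebraMap_mem _) (c j).2) hsum
  have hzero := Fintype.linearIndependent_iff.mp hind g hgsum i
  have hgi : C.Red y 0 := by
    have h := hg i
    rw [hzero] at h
    rwa [heq, ← mul_assoc, ← map_mul, inv_mul_cancel₀ hd, map_one, one_mul] at h
  exact hw (hy.unique hgi)

end Finite

include C in
/-- Scale a nonzero polynomial to be integral with nonzero reduction. -/
theorem exists_scaled_poly {p : Polynomial K} (hp : p ≠ 0) :
    ∃ (c : K) (p' : Polynomial A), c ≠ 0 ∧ p = Polynomial.C c * p'.map A.subtype ∧ p'.map π ≠ 0 := by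
  classical
  obtain ⟨⟨i, hi⟩, hi0, hmax⟩ := exists_max_valuation (A := A)
    (fun j : p.support => p.coeff j)
    (by obtain ⟨i, hi⟩ := Polynomial.nonempty_support_iff.mpr hp
        exact ⟨⟨i, hi⟩, Polynomial.mem_support_iff.mp hi⟩)
  have hmem : ∀ n, p.coeff n / p.coeff i ∈ A.subtype.rangeS := by
    intro n
    by_cases hn : n ∈ p.support
    · exact ⟨⟨_, hmax ⟨n, hn⟩⟩, rfl⟩
    · rw [Polynomial.notMem_support_iff.mp hn, zero_div]
      exact zero_mem _
  obtain ⟨p', hp'⟩ := (Polynomial.lifts_iff_coeff_lifts (f := A.subtype)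
    (Polynomial.C (p.coeff i)⁻¹ * p)).mpr fun n => by
      rw [Polynomial.coeff_C_mul, ← div_eq_inv_mul]
      obtain ⟨a, ha⟩ := hmem n
      exact ⟨a, ha⟩
  rw [Polynomial.coe_mapRingHom] at hp'
  refine ⟨p.coeff i, p', hi0, ?_, fun h0 => ?_⟩
  · rw [hp', ← mul_assoc, ← map_mul, mul_inv_cancel₀ hi0, map_one, one_mul]
  · have h1 : p'.coeff i = 1 := Subtype.ext <| by
      have := congrArg (fun q : Polynomial K => q.coeff i) hp'
      simp only [Polynomial.coeff_map, Polynomial.coeff_C_mul, inv_mul_cancel₀ hi0] at this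
      exact this
    have := congrArg (fun q : Polynomial k => q.coeff i) h0
    simp [h1] at this

section Gen

variable {z : F} {zb : Fb} (hz : C.Red z zb)

include hz in
theorem red_aeval (p : Polynomial A) :
    C.Red (aeval z (p.map A.subtype)) (aeval zb (p.map π)) := by
  induction p using Polynomial.induction_on' with
  | add p q hp hq => simpa using hp.add hq
  | monomial n a =>
    rw [Polynomial.map_monomial, Polynomial.map_monomial, Polynomial.aeval_monomial, Polynomial.aeval_monomial]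
    exact (C.red_const a).mul (hz.pow n)

variable (hzb : Transcendental k zb)

include hz hzb in
theorem aeval_red_ne_zero {p : Polynomial A} (hp : p.map π ≠ 0) : aeval zb (p.map π) ≠ 0 :=
  fun h => hp (transcendental_iff.mp hzb _ h)

include C hz hzb in
theorem transcendental_lift : Transcendental K z := by
  refine transcendental_iff.mpr fun p hp => ?_
  by_contra hne
  obtain ⟨c, p', hc, rfl, hp'⟩ := C.exists_scaled_poly hne
  rw [map_mul, Polynomial.aeval_C, mul_eq_zero, or_iff_right ((_root_.map_ne_zero _).mpr hc)] at hp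
  have h := C.red_aeval hz p'
  rw [hp] at h
  exact C.aeval_red_ne_zero hz hzb hp' (h.unique C.red_zero)

include hz hzb in
/-- An integral polynomial in `z` has integral coefficients. -/
theorem exists_poly_of_aeval_red {p : Polynomial K} {w : Fb} (h : C.Red (aeval z p) w) :
    ∃ p' : Polynomial A, p = p'.map A.subtype ∧ w = aeval zb (p'.map π) := by
  rcases eq_or_ne p 0 with rfl | hp
  · exact ⟨0, by simp, by simpa using h.unique (by simpa using C.red_zero)⟩
  obtain ⟨c, p', hc, rfl, hp'⟩ := C.exists_scaled_poly hp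
  rw [map_mul, Polynomial.aeval_C] at h
  have hcA := C.mem_of_algebraMap_mul_mem (C.red_aeval hz p') (C.aeval_red_ne_zero hz hzb hp') h
  refine ⟨Polynomial.C ⟨c, hcA⟩ * p', by simp, ?_⟩
  rw [h.unique ((C.red_const ⟨c, hcA⟩).mul (C.red_aeval hz p'))]
  simp

include hz hzb in
theorem red_mem_adjoin {f : F} (hf : f ∈ K⟮z⟯) {w : Fb} (h : C.Red f w) : w ∈ k⟮zb⟯ := by
  obtain ⟨p, q, rfl⟩ := (mem_adjoin_simple_iff K f).mp hf
  rcases eq_or_ne (aeval z q) 0 with hq | hq
  · rw [hq, div_zero] at h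
    rw [h.unique C.red_zero]
    exact zero_mem _
  obtain ⟨c, q', hc, rfl, hq'⟩ := C.exists_scaled_poly (A := A) (p := q) (by
    rintro rfl; simp at hq)
  rw [map_mul, Polynomial.aeval_C, mul_ne_zero_iff] at hq
  have h1 : C.Red (aeval z (Polynomial.C c⁻¹ * p)) (w * aeval zb (q'.map π)) := by
    have h2 := h.mul (C.red_aeval hz q')
    convert h2 using 1
    rw [map_mul, Polynomial.aeval_C, map_mul, Polynomial.aeval_C, map_inv₀]
    field_simp [hq.2]
  obtain ⟨p', -, hw⟩ := C.exists_poly_of_aeval_red hz hzb h1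
  rw [(eq_div_iff (C.aeval_red_ne_zero hz hzb hq')).mpr hw]
  exact (mem_adjoin_simple_iff k _).mpr ⟨p'.map π, q'.map π, rfl⟩

variable (hrank : Module.finrank K⟮z⟯ F = Module.finrank k⟮zb⟯ Fb)
  [FiniteDimensional K⟮z⟯ F] [FiniteDimensional k⟮zb⟯ Fb]

include hz hzb hrank in
/-- Norm and characteristic polynomial of an integral element over `K(z)` reduce to those of its
reduction. -/
theorem exists_matrix_red {x : F} {w : Fb} (h : C.Red x w) :
    ∃ (n : ℕ) (M : Matrix (Fin n) (Fin n) K⟮z⟯) (m : Matrix (Fin n) (Fin n) k⟮zb⟯)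
      (b : Module.Basis (Fin n) K⟮z⟯ F) (bb : Module.Basis (Fin n) k⟮zb⟯ Fb),
      Algebra.leftMulMatrix b x = M ∧ Algebra.leftMulMatrix bb w = m ∧
      ∀ i j, C.Red (M i j : F) (m i j : Fb) := by
  classical
  let bb := Module.finBasis k⟮zb⟯ Fb
  choose v hv using fun i => C.exists_lift (bb i)
  have hS : ∀ y ∈ K⟮z⟯, ∀ u, C.Red y u → u ∈ k⟮zb⟯ := fun y hy u hu =>
    C.red_mem_adjoin hz hzb hy hu
  have hind := C.linearIndependent_of_red K⟮z⟯ k⟮zb⟯ hS hv bb.linearIndependent
  let b : Module.Basis _ K⟮z⟯ F := Module.Basis.mk hind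
    (hind.span_eq_top_of_card_eq_finrank' (by rw [Fintype.card_fin, hrank])).ge
  have hb : ∀ i, b i = v i := fun i => Module.Basis.mk_apply _ _ i
  refine ⟨_, _, _, b, bb, rfl, rfl, fun i j => ?_⟩
  have hsum : C.Red (∑ i, (b.repr (x * b j) i : F) * v i) (w * bb j) := by
    have : ∑ i, (b.repr (x * b j) i : F) * v i = x * v j := by
      conv_rhs => rw [← hb j, ← b.sum_repr (x * b j)]
      exact Finset.sum_congr rfl fun i _ => by rw [← hb i]; rfl
    rw [this]
    exact h.mul (hv j)
  obtain ⟨g, hg, hgw⟩ := C.coeff_red K⟮z⟯ k⟮zb⟯ hS hv bb.linearIndependent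
    (fun i => (b.repr (x * b j) i).2) hsum
  rw [Algebra.leftMulMatrix_eq_repr_mul, Algebra.leftMulMatrix_eq_repr_mul]
  convert hg i using 2
  rw [← hgw]
  have : ∑ i, (g i : Fb) * bb i = ∑ i, g i • bb i := rfl
  rw [this, map_sum]
  simp [Finsupp.single_apply]

include hz hzb hrank in
theorem red_norm {x : F} {w : Fb} (h : C.Red x w) :
    C.Red (Algebra.norm K⟮z⟯ x : F) (Algebra.norm k⟮zb⟯ w : Fb) := by
  classical
  obtain ⟨n, M, m, b, bb, rfl, rfl, hM⟩ := C.exists_matrix_red hz hzb hrank h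
  rw [Algebra.norm_eq_matrix_det b, Algebra.norm_eq_matrix_det bb, Matrix.det_apply,
    Matrix.det_apply, AddSubmonoidClass.coe_finsetSum, AddSubmonoidClass.coe_finsetSum]
  refine Red.sum _ fun σ _ => ?_
  rcases Int.units_eq_one_or (Equiv.Perm.sign σ) with hs | hs <;>
    rw [hs]
  · simp only [one_smul, SubmonoidClass.coe_finsetProd]
    exact Red.prod _ fun i _ => hM _ _
  · simp only [Units.neg_smul, one_smul, NegMemClass.coe_neg, SubmonoidClass.coe_finsetProd]
    exact (Red.prod _ fun i _ => hM _ _).neg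

end Gen

end ConstReduction

end Fermat.Agent.Reduction.ConstRed

end
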